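/-
Programme K (S52, 3–5 switch), brick B1 (helper65): the universal basis of `E_v[5]`.

Blueprint (report 248, part A).  Over a field `K` we are given "Klein data": forms `f, H, T`
(only used as functions `K × K → K`), coordinates `XQ, YQ, XR, YR` of two points on the curve
`E_v : y² = x³ + 27 H(v) x + 54 T(v)`, and two maps `T5, S : K × K → K × K` preserving `H, T`, with

* ONE addition identity `Q(T5 v) = Q(v) - R(v)` (in cleared-denominator form) and `R(T5 v) = R(v)`,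
* `Q(S v) = -R(v)`, `R(S v) = Q(v)`,
* `(XQ - XR) * L = c * f²`, `T5⁵ = id`, `T² + H³ = 1728 f⁵`.

All of these are polynomial identities supplied by brick B0.  From them we derive, for every `w`
in the fibre `H w = h`, `T w = t` with `t² + h³ ≠ 0`, on the FIXED curve `E h t`:

* `Qp w`, `Rp w` are affine points, `Qp (T5 w) = Qp w - Rp w`, `Rp (T5 w) = Rp w`,
  `Qp (S w) = -Rp w`, `Rp (S w) = Qp w`;
* `5 • Rp w = 0`, `5 • Qp w = 0`;
* independence: `a • Qp w + b • Rp w = 0 → 5 ∣ a ∧ 5 ∣ b`.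

To avoid dependent-type transport along `E_{T5 v} = E_v`, points are built on a fixed curve by
`pt W x y := if h : W.Nonsingular x y then some x y h else 0`.
-/
import Mathlib

set_option autoImplicit false
set_option linter.unusedSectionVars false

open WeierstrassCurve WeierstrassCurve.Affine

namespace Fermat.Agent.S52K.TorsBasis65

variable {K : Type*} [Field K] [DecidableEq K]

/-! ### Generic lemmas on explicit additions -/

/-- Chord addition with an explicitly given slope. -/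
theorem some_add_some_of_slope {W : Affine K} {x₁ y₁ x₂ y₂ x₃ y₃ ℓ : K}
    (h₁ : W.Nonsingular x₁ y₁) (h₂ : W.Nonsingular x₂ y₂) (h₃ : W.Nonsingular x₃ y₃)
    (hx : x₁ ≠ x₂) (hℓ : ℓ * (x₁ - x₂) = y₁ - y₂)
    (hx₃ : x₃ = W.addX x₁ x₂ ℓ) (hy₃ : y₃ = W.addY x₁ x₂ y₁ ℓ) :
    Point.some x₁ y₁ h₁ + Point.some x₂ y₂ h₂ = Point.some x₃ y₃ h₃ := by
  have hs : W.slope x₁ x₂ y₁ y₂ = ℓ := by
    rw [slope_of_X_ne hx, div_eq_iff (sub_ne_zero.mpr hx), hℓ]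
  rw [Point.add_of_X_ne hx]
  subst hx₃ hy₃
  simp only [hs]

/-- Tangent doubling with an explicitly given slope. -/
theorem some_add_self_of_slope {W : Affine K} {x₁ y₁ x₃ y₃ ℓ : K}
    (h₁ : W.Nonsingular x₁ y₁) (h₃ : W.Nonsingular x₃ y₃)
    (hy : y₁ ≠ W.negY x₁ y₁)
    (hℓ : ℓ * (y₁ - W.negY x₁ y₁) = 3 * x₁ ^ 2 + 2 * W.a₂ * x₁ + W.a₄ - W.a₁ * y₁)
    (hx₃ : x₃ = W.addX x₁ x₁ ℓ) (hy₃ : y₃ = W.addY x₁ x₁ y₁ ℓ) :
    Point.some x₁ y₁ h₁ + Point.some x₁ y₁ h₁ = Point.some x₃ y₃ h₃ := by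
  have hs : W.slope x₁ x₁ y₁ y₁ = ℓ := by
    rw [slope_of_Y_ne rfl hy, div_eq_iff (sub_ne_zero.mpr hy), hℓ]
  rw [Point.add_self_of_Y_ne hy]
  subst hx₃ hy₃
  simp only [hs]

/-- The affine point with coordinates `(x, y)` if these are the coordinates of a nonsingular point
of `W`, and `0` otherwise.  This lets us name points of a fixed curve by their coordinates. -/
noncomputable def pt (W : Affine K) (x y : K) : W.Point :=
  open Classical in if h : W.Nonsingular x y then Point.some x y h else 0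

theorem pt_of {W : Affine K} {x y : K} (h : W.Nonsingular x y) : pt W x y = Point.some x y h := by
  unfold pt
  exact dif_pos h

theorem pt_ne_zero {W : Affine K} {x y : K} (h : W.Nonsingular x y) : pt W x y ≠ 0 := by
  rw [pt_of h]
  exact Point.some_ne_zero h

/-! ### The curve `E h t : y² = x³ + 27 h x + 54 t` -/

/-- The curve `y² = x³ + 27 h x + 54 t`. -/
def E (h t : K) : Affine K := ⟨0, 0, 0, 27 * h, 54 * t⟩

@[simp] theorem E_a₁ (h t : K) : (E h t).a₁ = 0 := rfl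
@[simp] theorem E_a₂ (h t : K) : (E h t).a₂ = 0 := rfl
@[simp] theorem E_a₃ (h t : K) : (E h t).a₃ = 0 := rfl
@[simp] theorem E_a₄ (h t : K) : (E h t).a₄ = 27 * h := rfl
@[simp] theorem E_a₆ (h t : K) : (E h t).a₆ = 54 * t := rfl

theorem E_Δ (h t : K) : (E h t).Δ = -1259712 * (t ^ 2 + h ^ 3) := by
  simp only [WeierstrassCurve.Δ, b₂, b₄, b₆, b₈, E_a₁, E_a₂, E_a₃, E_a₄, E_a₆]
  ring

theorem E_c₄ (h t : K) : (E h t).c₄ = -1296 * h := by
  simp only [WeierstrassCurve.c₄, b₂, b₄, E_a₁, E_a₂, E_a₃, E_a₄]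
  ring

theorem E_c₆ (h t : K) : (E h t).c₆ = -46656 * t := by
  simp only [WeierstrassCurve.c₆, b₂, b₄, b₆, E_a₁, E_a₂, E_a₃, E_a₄, E_a₆]
  ring

theorem E_equation (h t x y : K) :
    (E h t).Equation x y ↔ y ^ 2 = x ^ 3 + 27 * h * x + 54 * t := by
  rw [equation_iff]
  simp only [E_a₁, E_a₂, E_a₃, E_a₄, E_a₆]
  constructor <;> intro hh <;> linear_combination hh

theorem E_Δ_ne_zero {h t : K} (h6 : (6 : K) ≠ 0) (hd : t ^ 2 + h ^ 3 ≠ 0) : (E h t).Δ ≠ 0 := by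
  rw [E_Δ]
  have h1 : (1259712 : K) = 6 ^ 6 * 3 ^ 3 := by norm_num
  have h3 : (3 : K) ≠ 0 := fun h3 => h6 (by linear_combination 2 * h3)
  have : (1259712 : K) ≠ 0 := by
    rw [h1]
    exact mul_ne_zero (pow_ne_zero _ h6) (pow_ne_zero _ h3)
  exact mul_ne_zero (neg_ne_zero.mpr this) hd

theorem E_nonsingular {h t : K} (h6 : (6 : K) ≠ 0) (hd : t ^ 2 + h ^ 3 ≠ 0) (x y : K) :
    (E h t).Nonsingular x y ↔ y ^ 2 = x ^ 3 + 27 * h * x + 54 * t := by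
  rw [← equation_iff_nonsingular_of_Δ_ne_zero (E_Δ_ne_zero h6 hd), E_equation]

theorem E_negY (h t x y : K) : (E h t).negY x y = -y := by
  simp [negY]

theorem E_addX (h t x₁ x₂ ℓ : K) : (E h t).addX x₁ x₂ ℓ = ℓ ^ 2 - x₁ - x₂ := by
  simp [addX]

theorem E_addY (h t x₁ x₂ y₁ ℓ : K) :
    (E h t).addY x₁ x₂ y₁ ℓ = -(ℓ * (ℓ ^ 2 - x₁ - x₂ - x₁) + y₁) := by
  simp [addY, negAddY, negY, addX]

/-! ### Klein data -/

/-- The polynomial identities (brick B0) that brick B1 consumes.  All fields are identities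
between explicit forms in `v = (z₁, z₂)`; `T5`, `S` are the generators of the binary icosahedral
group acting on `K × K`. -/
structure KleinPts (K : Type*) [Field K] where
  f : K × K → K
  H : K × K → K
  T : K × K → K
  XQ : K × K → K
  YQ : K × K → K
  XR : K × K → K
  YR : K × K → K
  L : K × K → K
  c : K
  T5 : K × K → K × K
  S : K × K → K × K
  six_ne : (6 : K) ≠ 0
  c_ne : c ≠ 0
  syz : ∀ v, T v ^ 2 + H v ^ 3 = 1728 * f v ^ 5
  H_T5 : ∀ v, H (T5 v) = H v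
  T_T5 : ∀ v, T (T5 v) = T v
  H_S : ∀ v, H (S v) = H v
  T_S : ∀ v, T (S v) = T v
  Q_on : ∀ v, YQ v ^ 2 = XQ v ^ 3 + 27 * H v * XQ v + 54 * T v
  R_on : ∀ v, YR v ^ 2 = XR v ^ 3 + 27 * H v * XR v + 54 * T v
  XR_T5 : ∀ v, XR (T5 v) = XR v
  YR_T5 : ∀ v, YR (T5 v) = YR v
  /-- `x(Q - R) = x(Q ∘ T5)`, denominators cleared. -/
  add_X : ∀ v, XQ (T5 v) * (XQ v - XR v) ^ 2 =
    (YQ v + YR v) ^ 2 - (XQ v + XR v) * (XQ v - XR v) ^ 2
  /-- `y(Q - R) = y(Q ∘ T5)`, denominators cleared. -/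
  add_Y : ∀ v, YQ (T5 v) * (XQ v - XR v) =
    -((YQ v + YR v) * (XQ (T5 v) - XQ v) + YQ v * (XQ v - XR v))
  T5_pow : ∀ v, T5 (T5 (T5 (T5 (T5 v)))) = v
  XQ_S : ∀ v, XQ (S v) = XR v
  YQ_S : ∀ v, YQ (S v) = -YR v
  XR_S : ∀ v, XR (S v) = XQ v
  YR_S : ∀ v, YR (S v) = YQ v
  sep : ∀ v, (XQ v - XR v) * L v = c * f v ^ 2

namespace KleinPts

variable (D : KleinPts K)

/-- The fibre of `(H, T)` over `(h, t)`. -/
def Fib (h t : K) : Set (K × K) := {w | D.H w = h ∧ D.T w = t}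

variable {D} {h t : K}

theorem T5_mem_Fib {w : K × K} (hw : w ∈ D.Fib h t) : D.T5 w ∈ D.Fib h t :=
  ⟨(D.H_T5 w).trans hw.1, (D.T_T5 w).trans hw.2⟩

theorem S_mem_Fib {w : K × K} (hw : w ∈ D.Fib h t) : D.S w ∈ D.Fib h t :=
  ⟨(D.H_S w).trans hw.1, (D.T_S w).trans hw.2⟩

theorem T5_iterate_mem_Fib {w : K × K} (hw : w ∈ D.Fib h t) (k : ℕ) :
    D.T5^[k] w ∈ D.Fib h t := by
  induction k with
  | zero => exact hw
  | succ k ih =>
    rw [Function.iterate_succ_apply']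
    exact T5_mem_Fib ih

theorem f_ne_zero {w : K × K} (hw : w ∈ D.Fib h t) (hd : t ^ 2 + h ^ 3 ≠ 0) : D.f w ≠ 0 := by
  intro hf
  apply hd
  have := D.syz w
  rw [hw.1, hw.2, hf] at this
  rw [this]
  ring

theorem XQ_ne_XR {w : K × K} (hw : w ∈ D.Fib h t) (hd : t ^ 2 + h ^ 3 ≠ 0) :
    D.XQ w ≠ D.XR w := by
  intro hx
  have := D.sep w
  rw [hx, sub_self, zero_mul] at this
  exact mul_ne_zero D.c_ne (pow_ne_zero 2 (f_ne_zero hw hd)) this.symm

variable (D h t)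

/-- The point `Q(w)`, as a point of the fixed curve `E h t`. -/
noncomputable def Qp (w : K × K) : (E h t).Point := pt (E h t) (D.XQ w) (D.YQ w)

/-- The point `R(w)`, as a point of the fixed curve `E h t`. -/
noncomputable def Rp (w : K × K) : (E h t).Point := pt (E h t) (D.XR w) (D.YR w)

variable {D h t}

theorem nonsingular_Q {w : K × K} (hw : w ∈ D.Fib h t) (hd : t ^ 2 + h ^ 3 ≠ 0) :
    (E h t).Nonsingular (D.XQ w) (D.YQ w) := by
  rw [E_nonsingular D.six_ne hd, ← hw.1, ← hw.2]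
  exact D.Q_on w

theorem nonsingular_R {w : K × K} (hw : w ∈ D.Fib h t) (hd : t ^ 2 + h ^ 3 ≠ 0) :
    (E h t).Nonsingular (D.XR w) (D.YR w) := by
  rw [E_nonsingular D.six_ne hd, ← hw.1, ← hw.2]
  exact D.R_on w

theorem Qp_eq {w : K × K} (hw : w ∈ D.Fib h t) (hd : t ^ 2 + h ^ 3 ≠ 0) :
    D.Qp h t w = Point.some _ _ (nonsingular_Q hw hd) := pt_of _

theorem Rp_eq {w : K × K} (hw : w ∈ D.Fib h t) (hd : t ^ 2 + h ^ 3 ≠ 0) :
    D.Rp h t w = Point.some _ _ (nonsingular_R hw hd) := pt_of _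

theorem Qp_ne_zero {w : K × K} (hw : w ∈ D.Fib h t) (hd : t ^ 2 + h ^ 3 ≠ 0) :
    D.Qp h t w ≠ 0 := pt_ne_zero (nonsingular_Q hw hd)

theorem Rp_ne_zero {w : K × K} (hw : w ∈ D.Fib h t) (hd : t ^ 2 + h ^ 3 ≠ 0) :
    D.Rp h t w ≠ 0 := pt_ne_zero (nonsingular_R hw hd)

/-- `R(T5 w) = R(w)`. -/
theorem Rp_T5 (w : K × K) : D.Rp h t (D.T5 w) = D.Rp h t w := by
  unfold Rp
  rw [D.XR_T5, D.YR_T5]

/-- `Q(S w) = -R(w)`. -/
theorem Qp_S {w : K × K} (hw : w ∈ D.Fib h t) (hd : t ^ 2 + h ^ 3 ≠ 0) :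
    D.Qp h t (D.S w) = -D.Rp h t w := by
  rw [Rp_eq hw hd, Point.neg_some]
  unfold Qp
  have hns := (nonsingular_neg (W' := E h t) _ _).mpr (nonsingular_R hw hd)
  rw [← pt_of hns, D.XQ_S, D.YQ_S, E_negY]

/-- `R(S w) = Q(w)`. -/
theorem Rp_S (w : K × K) : D.Rp h t (D.S w) = D.Qp h t w := by
  unfold Rp Qp
  rw [D.XR_S, D.YR_S]

/-- The addition identity `Q(T5 w) = Q(w) - R(w)` on the fixed curve. -/
theorem Qp_T5 {w : K × K} (hw : w ∈ D.Fib h t) (hd : t ^ 2 + h ^ 3 ≠ 0) :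
    D.Qp h t (D.T5 w) = D.Qp h t w - D.Rp h t w := by
  have hx := XQ_ne_XR hw hd
  have hx' : D.XQ w - D.XR w ≠ 0 := sub_ne_zero.mpr hx
  rw [Qp_eq (T5_mem_Fib hw) hd, Qp_eq hw hd, Rp_eq hw hd, sub_eq_add_neg, Point.neg_some]
  symm
  have hX : ((D.YQ w + D.YR w) / (D.XQ w - D.XR w)) ^ 2 - D.XQ w - D.XR w = D.XQ (D.T5 w) := by
    have h1 := D.add_X w
    rw [div_pow, sub_sub, sub_eq_iff_eq_add, div_eq_iff (pow_ne_zero 2 hx')]
    linear_combination -h1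
  apply some_add_some_of_slope (ℓ := (D.YQ w + D.YR w) / (D.XQ w - D.XR w)) _ _ _ hx
  · rw [div_mul_cancel₀ _ hx', E_negY]
    ring
  · rw [E_addX]
    exact hX.symm
  · rw [E_addY, hX]
    have h2 := D.add_Y w
    rw [eq_neg_iff_add_eq_zero, div_mul_eq_mul_div, add_comm (_ / _), ← add_assoc,
      add_div' _ _ _ hx', div_eq_zero_iff]
    left
    linear_combination h2

/-- `Q(T5^k w) = Q(w) - k R(w)`. -/
theorem Qp_T5_iterate {w : K × K} (hw : w ∈ D.Fib h t) (hd : t ^ 2 + h ^ 3 ≠ 0) (k : ℕ) :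
    D.Qp h t (D.T5^[k] w) = D.Qp h t w - k • D.Rp h t w := by
  induction k with
  | zero => simp
  | succ k ih =>
    have hR : ∀ j : ℕ, D.Rp h t (D.T5^[j] w) = D.Rp h t w := by
      intro j
      induction j with
      | zero => rfl
      | succ j ihj => rw [Function.iterate_succ_apply', Rp_T5, ihj]
    rw [Function.iterate_succ_apply', Qp_T5 (T5_iterate_mem_Fib hw k) hd, ih, hR, succ_nsmul]
    abel

/-- `5 R(w) = 0`. -/
theorem five_nsmul_Rp {w : K × K} (hw : w ∈ D.Fib h t) (hd : t ^ 2 + h ^ 3 ≠ 0) :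
    5 • D.Rp h t w = 0 := by
  have h5 := Qp_T5_iterate hw hd 5
  have : D.T5^[5] w = w := D.T5_pow w
  rw [this] at h5
  have h6 : D.Qp h t w - 5 • D.Rp h t w = D.Qp h t w - 0 := by rw [sub_zero]; exact h5.symm
  exact sub_right_injective h6

/-- `5 Q(w) = 0`. -/
theorem five_nsmul_Qp {w : K × K} (hw : w ∈ D.Fib h t) (hd : t ^ 2 + h ^ 3 ≠ 0) :
    5 • D.Qp h t w = 0 := by
  rw [← Rp_S]
  exact five_nsmul_Rp (S_mem_Fib hw) hd

theorem addOrderOf_Rp {w : K × K} (hw : w ∈ D.Fib h t) (hd : t ^ 2 + h ^ 3 ≠ 0) :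
    addOrderOf (D.Rp h t w) = 5 :=
  haveI : Fact (Nat.Prime 5) := ⟨by norm_num⟩
  addOrderOf_eq_prime (five_nsmul_Rp hw hd) (Rp_ne_zero hw hd)

theorem addOrderOf_Qp {w : K × K} (hw : w ∈ D.Fib h t) (hd : t ^ 2 + h ^ 3 ≠ 0) :
    addOrderOf (D.Qp h t w) = 5 :=
  haveI : Fact (Nat.Prime 5) := ⟨by norm_num⟩
  addOrderOf_eq_prime (five_nsmul_Qp hw hd) (Qp_ne_zero hw hd)

theorem zsmul_Rp_eq_zero_iff {w : K × K} (hw : w ∈ D.Fib h t) (hd : t ^ 2 + h ^ 3 ≠ 0) (b : ℤ) :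
    b • D.Rp h t w = 0 ↔ (5 : ℤ) ∣ b := by
  rw [← addOrderOf_dvd_iff_zsmul_eq_zero, addOrderOf_Rp hw hd]
  rfl

theorem zsmul_Qp_eq_zero_iff {w : K × K} (hw : w ∈ D.Fib h t) (hd : t ^ 2 + h ^ 3 ≠ 0) (a : ℤ) :
    a • D.Qp h t w = 0 ↔ (5 : ℤ) ∣ a := by
  rw [← addOrderOf_dvd_iff_zsmul_eq_zero, addOrderOf_Qp hw hd]
  rfl

/-- `Q(w)` is not a multiple of `R(w)`. -/
theorem Qp_ne_zsmul_Rp {w : K × K} (hw : w ∈ D.Fib h t) (hd : t ^ 2 + h ^ 3 ≠ 0) (x : ℤ) :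
    D.Qp h t w ≠ x • D.Rp h t w := by
  intro hQ
  have h5 : (5 : ℤ) • D.Rp h t w = 0 := by
    have := five_nsmul_Rp hw hd
    rwa [← natCast_zsmul] at this
  have hx : x • D.Rp h t w = (x % 5).toNat • D.Rp h t w := by
    have hnn : 0 ≤ x % 5 := Int.emod_nonneg x (by norm_num)
    rw [← natCast_zsmul, Int.toNat_of_nonneg hnn]
    conv_lhs => rw [← Int.emod_add_mul_ediv x 5]
    rw [add_smul, mul_comm, mul_smul, h5, smul_zero, add_zero]
  have := Qp_T5_iterate hw hd (x % 5).toNat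
  rw [← hx, ← hQ, sub_self] at this
  exact Qp_ne_zero (T5_iterate_mem_Fib hw _) hd this

/-- **Independence** of the universal basis. -/
theorem indep {w : K × K} (hw : w ∈ D.Fib h t) (hd : t ^ 2 + h ^ 3 ≠ 0) {a b : ℤ}
    (hab : a • D.Qp h t w + b • D.Rp h t w = 0) : (5 : ℤ) ∣ a ∧ (5 : ℤ) ∣ b := by
  have ha : (5 : ℤ) ∣ a := by
    by_contra hna
    have hcop : IsCoprime a 5 := by
      have h5 : Prime (5 : ℤ) := by norm_num
      exact (h5.coprime_iff_not_dvd.mpr hna).symm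
    obtain ⟨m, n, hmn⟩ := hcop
    have h5Q : (5 : ℤ) • D.Qp h t w = 0 := by
      have := five_nsmul_Qp hw hd
      rwa [← natCast_zsmul] at this
    have haQ : a • D.Qp h t w = (-b) • D.Rp h t w := by
      rw [neg_smul]
      exact eq_neg_of_add_eq_zero_left hab
    have : D.Qp h t w = (m * -b) • D.Rp h t w := by
      calc D.Qp h t w = (m * a + n * 5) • D.Qp h t w := by rw [hmn, one_smul]
        _ = m • (a • D.Qp h t w) + n • ((5 : ℤ) • D.Qp h t w) := by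
          rw [add_smul, mul_smul, mul_smul]
        _ = (m * -b) • D.Rp h t w := by rw [haQ, h5Q, smul_zero, add_zero, mul_smul]
    exact Qp_ne_zsmul_Rp hw hd _ this
  refine ⟨ha, ?_⟩
  have : a • D.Qp h t w = 0 := (zsmul_Qp_eq_zero_iff hw hd a).mpr ha
  rw [this, zero_add] at hab
  exact (zsmul_Rp_eq_zero_iff hw hd b).mp hab

end KleinPts

end Fermat.Agent.S52K.TorsBasis65
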