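/-
Programme K (S52), brick B1 (helper65), second part: over an algebraically closed field of
characteristic zero the universal pair `(Q(w), R(w))` SPANS `E[5]` (uses `#E[5] = 25` from
`DivPoly.CardEq29`), hence is a basis of the `5`-torsion.
-/
import Mathlib
import Fermat.Agent.DivPoly.CardEq29
import Fermat.Agent.S52K1B.TorsBasis65

set_option autoImplicit false
set_option linter.unusedSectionVars false

open WeierstrassCurve WeierstrassCurve.Affine

namespace Fermat.Agent.S52K.TorsSpan65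

open Fermat.Agent.S52K.TorsBasis65 Fermat.Agent.S52K.TorsBasis65.KleinPts

variable {K : Type*} [Field K] [DecidableEq K] [IsAlgClosed K] [CharZero K]
variable {D : KleinPts K} {h t : K}

/-- Every `5`-torsion point of `E h t` is a combination `a Q(w) + b R(w)` with `a, b < 5`. -/
theorem exists_eq_nsmul_add {w : K × K} (hw : w ∈ D.Fib h t) (hd : t ^ 2 + h ^ 3 ≠ 0)
    (P : (E h t).Point) (hP : 5 • P = 0) :
    ∃ a b : Fin 5, P = (a : ℕ) • D.Qp h t w + (b : ℕ) • D.Rp h t w := by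
  classical
  have hmem : ∀ a b : ℕ, a • D.Qp h t w + b • D.Rp h t w ∈
      Submodule.torsionBy ℤ (E h t).Point ((5 : ℕ) : ℤ) := by
    intro a b
    rw [Submodule.mem_torsionBy_iff, Nat.cast_smul_eq_nsmul, smul_add, smul_comm 5 a,
      smul_comm 5 b, five_nsmul_Qp hw hd, five_nsmul_Rp hw hd, smul_zero, smul_zero, add_zero]
  let g : Fin 5 × Fin 5 → Submodule.torsionBy ℤ (E h t).Point ((5 : ℕ) : ℤ) :=
    fun ab => ⟨(ab.1 : ℕ) • D.Qp h t w + (ab.2 : ℕ) • D.Rp h t w, hmem _ _⟩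
  have hinj : Function.Injective g := by
    rintro ⟨a, b⟩ ⟨a', b'⟩ hab
    have h1 : (a : ℕ) • D.Qp h t w + (b : ℕ) • D.Rp h t w =
        (a' : ℕ) • D.Qp h t w + (b' : ℕ) • D.Rp h t w := congrArg Subtype.val hab
    have h2 : ((a : ℕ) - (a' : ℕ) : ℤ) • D.Qp h t w + ((b : ℕ) - (b' : ℕ) : ℤ) • D.Rp h t w = 0 := by
      rw [sub_smul, sub_smul, natCast_zsmul, natCast_zsmul, natCast_zsmul, natCast_zsmul]
      have : (a : ℕ) • D.Qp h t w - (a' : ℕ) • D.Qp h t w +
          ((b : ℕ) • D.Rp h t w - (b' : ℕ) • D.Rp h t w) =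
          ((a : ℕ) • D.Qp h t w + (b : ℕ) • D.Rp h t w) -
          ((a' : ℕ) • D.Qp h t w + (b' : ℕ) • D.Rp h t w) := by abel
      rw [this, h1, sub_self]
    obtain ⟨ha, hb⟩ := indep hw hd h2
    have ha' : a = a' := by
      have h1 := a.isLt
      have h2 := a'.isLt
      apply Fin.ext
      omega
    have hb' : b = b' := by
      have h1 := b.isLt
      have h2 := b'.isLt
      apply Fin.ext
      omega
    rw [ha', hb']
  have hΔ : (E h t).Δ ≠ 0 := E_Δ_ne_zero D.six_ne hd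
  have hcard : Nat.card (Submodule.torsionBy ℤ (E h t).Point ((5 : ℕ) : ℤ)) = 5 ^ 2 :=
    Fermat.Agent.DivPoly.CardEq29.card_torsionBy_eq hΔ (by decide)
  have hfin : Finite (Submodule.torsionBy ℤ (E h t).Point ((5 : ℕ) : ℤ)) :=
    Nat.finite_of_card_ne_zero (by rw [hcard]; norm_num)
  have hbij : Function.Bijective g := by
    apply Function.Injective.bijective_of_nat_card_le hinj
    rw [hcard, Nat.card_prod, Nat.card_fin]
    norm_num
  have hPm : P ∈ Submodule.torsionBy ℤ (E h t).Point ((5 : ℕ) : ℤ) := by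
    rw [Submodule.mem_torsionBy_iff, Nat.cast_smul_eq_nsmul]
    exact hP
  obtain ⟨⟨a, b⟩, hab⟩ := hbij.2 ⟨P, hPm⟩
  exact ⟨a, b, (congrArg Subtype.val hab).symm⟩

/-- The same with integer coefficients. -/
theorem exists_eq_zsmul_add {w : K × K} (hw : w ∈ D.Fib h t) (hd : t ^ 2 + h ^ 3 ≠ 0)
    (P : (E h t).Point) (hP : 5 • P = 0) :
    ∃ a b : ℤ, P = a • D.Qp h t w + b • D.Rp h t w := by
  obtain ⟨a, b, hab⟩ := exists_eq_nsmul_add hw hd P hP
  exact ⟨(a : ℕ), (b : ℕ), by rw [natCast_zsmul, natCast_zsmul]; exact hab⟩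

end Fermat.Agent.S52K.TorsSpan65
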